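import Mathlib.NumberTheory.Chebyshev
import Mathlib.MeasureTheory.Integral.IntervalIntegral.FundThmCalculus
import Mathlib.Analysis.SpecialFunctions.Integrals.Basic

/-!
# Bounds for `π - li` and for `ψ - x` by the same power

The passage in both directions by partial summation.
-/

set_option autoImplicit false

noncomputable section

namespace FA.VonKoch

open Real MeasureTheory Set
open scoped Chebyshev

/-- The logarithmic integral from `2`. -/
def liTwo (x : ℝ) : ℝ := ∫ t in (2 : ℝ)..x, 1 / log t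

theorem intervalIntegrable_inv_log {x : ℝ} (hx : 2 ≤ x) :
    IntervalIntegrable (fun t => 1 / log t) volume 2 x :=
  ContinuousOn.intervalIntegrable fun t ht => ContinuousAt.continuousWithinAt <| by
    rw [uIcc_of_le hx] at ht
    have h1 : t ≠ 0 := by linarith [ht.1]
    have h2 : log t ≠ 0 := (log_pos (by linarith [ht.1])).ne'
    fun_prop (disch := assumption)

theorem hasDerivAt_liTwo {t : ℝ} (ht : 2 ≤ t) : HasDerivAt liTwo (1 / log t) t := by
  have h1 : t ≠ 0 := by linarith
  have h2 : log t ≠ 0 := (log_pos (by linarith)).ne'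
  exact intervalIntegral.integral_hasDerivAt_right (intervalIntegrable_inv_log ht)
    ((show Measurable fun u : ℝ => 1 / log u by fun_prop).stronglyMeasurable
      ).stronglyMeasurableAtFilter
    (by fun_prop (disch := assumption))

theorem intervalIntegrable_liTwo_div {x : ℝ} (hx : 2 ≤ x) :
    IntervalIntegrable (fun t => liTwo t / t) volume 2 x :=
  ContinuousOn.intervalIntegrable fun t ht => by
    rw [uIcc_of_le hx] at ht
    exact ((hasDerivAt_liTwo ht.1).continuousAt.div continuousAt_id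
      (show t ≠ 0 by linarith [ht.1])).continuousWithinAt

/-- `li x log x - ∫ li t / t = x - 2`. -/
theorem liTwo_mul_log {x : ℝ} (hx : 2 ≤ x) :
    liTwo x * log x - ∫ t in (2 : ℝ)..x, liTwo t / t = x - 2 := by
  have hd : ∀ t ∈ uIcc 2 x, HasDerivAt (fun u => liTwo u * log u) (1 + liTwo t / t) t :=
    fun t ht => by
      rw [uIcc_of_le hx] at ht
      have h1 : t ≠ 0 := by linarith [ht.1]
      have h2 : log t ≠ 0 := (log_pos (by linarith [ht.1])).ne'
      refine ((hasDerivAt_liTwo ht.1).mul (hasDerivAt_log h1)).congr_deriv ?_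
      field_simp
  have h := intervalIntegral.integral_eq_sub_of_hasDerivAt hd
    (intervalIntegrable_const.add (intervalIntegrable_liTwo_div hx))
  rw [intervalIntegral.integral_add intervalIntegrable_const (intervalIntegrable_liTwo_div hx),
    intervalIntegral.integral_const, smul_eq_mul, mul_one] at h
  have h0 : liTwo 2 = 0 := intervalIntegral.integral_same
  rw [h0, zero_mul] at h
  linarith

/-- `∫ t ^ (a - 1) ≤ x ^ a / a`. -/
theorem integral_rpow_le {a x : ℝ} (ha : 0 < a) :
    ∫ t in (2 : ℝ)..x, t ^ (a - 1) ≤ x ^ a / a := by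
  rw [integral_rpow (Or.inl (by linarith)), sub_add_cancel, sub_div]
  have : 0 ≤ (2 : ℝ) ^ a / a := by positivity
  linarith

theorem theta_le_of_psi {a C : ℝ} (ha : 1 / 2 < a)
    (h : ∀ x : ℝ, 2 ≤ x → |ψ x - x| ≤ C * x ^ a) :
    ∀ x : ℝ, 2 ≤ x → |θ x - x| ≤ (C + 2 / (a - 1 / 2)) * x ^ a := by
  intro x hx
  have hx0 : 0 < x := by linarith
  have h1 := Chebyshev.abs_psi_sub_theta_le_sqrt_mul_log (show 1 ≤ x by linarith)
  have h2 := log_le_rpow_div hx0.le (show 0 < a - 1 / 2 by linarith)
  have h3 : 2 * √x * log x ≤ 2 / (a - 1 / 2) * x ^ a := by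
    refine (mul_le_mul_of_nonneg_left h2 (by positivity)).trans (le_of_eq ?_)
    rw [sqrt_eq_rpow, show x ^ a = x ^ (1 / 2 : ℝ) * x ^ (a - 1 / 2) by
      rw [← rpow_add hx0]; congr 1; ring]
    ring
  have := abs_sub_le (θ x) (ψ x) x
  rw [abs_sub_comm (θ x) (ψ x)] at this
  linarith [h x hx]

theorem psi_le_of_theta {a C : ℝ} (ha : 1 / 2 < a)
    (h : ∀ x : ℝ, 2 ≤ x → |θ x - x| ≤ C * x ^ a) :
    ∀ x : ℝ, 2 ≤ x → |ψ x - x| ≤ (C + 2 / (a - 1 / 2)) * x ^ a := by
  intro x hx
  have hx0 : 0 < x := by linarith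
  have h1 := Chebyshev.abs_psi_sub_theta_le_sqrt_mul_log (show 1 ≤ x by linarith)
  have h2 := log_le_rpow_div hx0.le (show 0 < a - 1 / 2 by linarith)
  have h3 : 2 * √x * log x ≤ 2 / (a - 1 / 2) * x ^ a := by
    refine (mul_le_mul_of_nonneg_left h2 (by positivity)).trans (le_of_eq ?_)
    rw [sqrt_eq_rpow, show x ^ a = x ^ (1 / 2 : ℝ) * x ^ (a - 1 / 2) by
      rw [← rpow_add hx0]; congr 1; ring]
    ring
  linarith [h x hx, abs_sub_le (ψ x) (θ x) x]

/-- From `θ` to `π`. -/
theorem primeCount_of_theta {a C : ℝ} (ha : 0 < a) (hC : 0 ≤ C)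
    (h : ∀ x : ℝ, 2 ≤ x → |θ x - x| ≤ C * x ^ a) :
    ∀ x : ℝ, 2 ≤ x → |(Nat.primeCounting ⌊x⌋₊ : ℝ) - liTwo x| ≤
      (C / log 2 + 2 / log 2 + C / (log 2 ^ 2 * a)) * x ^ a := by
  intro x hx
  have hx0 : 0 < x := by linarith
  have hl2 : 0 < log 2 := log_pos one_lt_two
  have hlx : log 2 ≤ log x := log_le_log two_pos hx
  have hne : ∀ t ∈ uIcc 2 x, t ≠ 0 ∧ log t ≠ 0 := fun t ht => by
    rw [uIcc_of_le hx] at ht
    exact ⟨by linarith [ht.1], (log_pos (by linarith [ht.1])).ne'⟩
  have i2 : IntervalIntegrable (fun t => 1 / log t ^ 2) volume 2 x :=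
    Chebyshev.intervalIntegrable_one_div_log_sq one_lt_two (by linarith)
  have hparts : liTwo x = x / log x - 2 / log 2 + ∫ t in (2 : ℝ)..x, 1 / log t ^ 2 := by
    have hd : ∀ t ∈ uIcc 2 x,
        HasDerivAt (fun u => u / log u) (1 / log t - 1 / log t ^ 2) t := fun t ht => by
      obtain ⟨h1, h2⟩ := hne t ht
      refine ((hasDerivAt_id' t).div (hasDerivAt_log h1) h2).congr_deriv ?_
      field_simp
    have := intervalIntegral.integral_eq_sub_of_hasDerivAt hd
      ((intervalIntegrable_inv_log hx).sub i2)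
    rw [intervalIntegral.integral_sub (intervalIntegrable_inv_log hx) i2] at this
    unfold liTwo
    linarith
  have i3 : IntervalIntegrable (fun t => θ t / (t * log t ^ 2)) volume 2 x :=
    (intervalIntegrable_iff_integrableOn_Icc_of_le hx).2
      (Chebyshev.integrableOn_theta_div_id_mul_log_sq x)
  have hint : |(∫ t in (2 : ℝ)..x, θ t / (t * log t ^ 2)) - ∫ t in (2 : ℝ)..x, 1 / log t ^ 2| ≤
      C / (log 2 ^ 2 * a) * x ^ a := by
    rw [← intervalIntegral.integral_sub i3 i2, ← norm_eq_abs]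
    refine (intervalIntegral.norm_integral_le_of_norm_le hx
      (Filter.Eventually.of_forall fun t ht => ?_)
      ((intervalIntegral.intervalIntegrable_rpow' (by linarith : -1 < a - 1)).const_mul
        (C / log 2 ^ 2))).trans ?_
    · have ht0 : 0 < t := by linarith [ht.1]
      have hlt : log 2 ≤ log t := log_le_log two_pos ht.1.le
      have hl0 : 0 < log t := by linarith
      have e1 : θ t / (t * log t ^ 2) - 1 / log t ^ 2 = (θ t - t) / (t * log t ^ 2) := by
        field_simp
      rw [norm_eq_abs, e1, abs_div, abs_of_pos (by positivity : 0 < t * log t ^ 2)]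
      calc |θ t - t| / (t * log t ^ 2) ≤ C * t ^ a / (t * log t ^ 2) := by
            gcongr
            exact h t ht.1.le
        _ = C / log t ^ 2 * t ^ (a - 1) := by
            rw [rpow_sub_one ht0.ne']
            field_simp
        _ ≤ _ := mul_le_mul_of_nonneg_right (by gcongr) (rpow_nonneg ht0.le _)
    · rw [intervalIntegral.integral_const_mul]
      refine (mul_le_mul_of_nonneg_left (integral_rpow_le ha) (by positivity)).trans (le_of_eq ?_)
      field_simp
  have hmain : |(θ x - x) / log x| ≤ C / log 2 * x ^ a := by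
    rw [abs_div, abs_of_pos (by linarith : 0 < log x)]
    calc |θ x - x| / log x ≤ C * x ^ a / log 2 := div_le_div₀ (by positivity) (h x hx) hl2 hlx
      _ = _ := by ring
  have hk : 2 / log 2 ≤ 2 / log 2 * x ^ a :=
    le_mul_of_one_le_right (by positivity) (one_le_rpow (by linarith) ha.le)
  have hk0 : 0 ≤ 2 / log 2 := by positivity
  rw [Chebyshev.primeCounting_eq_theta_div_log_add_integral hx, hparts]
  rw [sub_div] at hmain
  rw [abs_le] at hint hmain ⊢
  constructor <;> linarith

/-- From `π` to `θ`, at the cost of an arbitrarily small power. -/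
theorem theta_of_primeCount {a b C : ℝ} (ha : 0 < a) (hab : a < b) (hC : 0 ≤ C)
    (h : ∀ x : ℝ, 2 ≤ x → |(Nat.primeCounting ⌊x⌋₊ : ℝ) - liTwo x| ≤ C * x ^ a) :
    ∀ x : ℝ, 2 ≤ x → |θ x - x| ≤ (C / (b - a) + C / a + 2) * x ^ b := by
  intro x hx
  have hx0 : 0 < x := by linarith
  have hlx : 0 ≤ log x := log_nonneg (by linarith)
  have hpow : x ^ a ≤ x ^ b := rpow_le_rpow_of_exponent_le (by linarith) hab.le
  have hmon : Monotone fun t : ℝ => (Nat.primeCounting ⌊t⌋₊ : ℝ) := fun u v huv =>
    Nat.cast_le.2 (Nat.monotone_primeCounting (Nat.floor_mono huv))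
  have i1 : IntervalIntegrable (fun t : ℝ => (Nat.primeCounting ⌊t⌋₊ : ℝ) / t) volume 2 x := by
    simp_rw [div_eq_mul_inv]
    refine hmon.intervalIntegrable.mul_continuousOn (continuousOn_id.inv₀ fun t ht => ?_)
    rw [uIcc_of_le hx] at ht
    exact ne_of_gt (show (0 : ℝ) < t by linarith [ht.1])
  have i2 := intervalIntegrable_liTwo_div hx
  have hint : |(∫ t in (2 : ℝ)..x, (Nat.primeCounting ⌊t⌋₊ : ℝ) / t) -
      ∫ t in (2 : ℝ)..x, liTwo t / t| ≤ C / a * x ^ a := by
    rw [← intervalIntegral.integral_sub i1 i2, ← norm_eq_abs]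
    refine (intervalIntegral.norm_integral_le_of_norm_le hx
      (Filter.Eventually.of_forall fun t ht => ?_)
      ((intervalIntegral.intervalIntegrable_rpow' (by linarith : -1 < a - 1)).const_mul
        C)).trans ?_
    · have ht0 : 0 < t := by linarith [ht.1]
      rw [norm_eq_abs, ← sub_div, abs_div, abs_of_pos ht0, div_le_iff₀ ht0, mul_assoc,
        rpow_sub_one ht0.ne', div_mul_cancel₀ _ ht0.ne']
      exact h t ht.1.le
    · rw [intervalIntegral.integral_const_mul]
      refine (mul_le_mul_of_nonneg_left (integral_rpow_le ha) hC).trans (le_of_eq ?_)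
      ring
  have hmain : |((Nat.primeCounting ⌊x⌋₊ : ℝ) - liTwo x) * log x| ≤ C / (b - a) * x ^ b := by
    rw [abs_mul, abs_of_nonneg hlx]
    refine (mul_le_mul (h x hx) (log_le_rpow_div hx0.le (show 0 < b - a by linarith)) hlx
      (by positivity)).trans (le_of_eq ?_)
    rw [show x ^ b = x ^ a * x ^ (b - a) by rw [← rpow_add hx0]; congr 1; ring]
    ring
  have h2 : C / a * x ^ a ≤ C / a * x ^ b := mul_le_mul_of_nonneg_left hpow (by positivity)
  have h3 : 2 ≤ 2 * x ^ b :=
    le_mul_of_one_le_right two_pos.le (one_le_rpow (by linarith) (ha.trans hab).le)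
  have hli := liTwo_mul_log hx
  rw [Chebyshev.theta_eq_primeCounting_mul_log_sub_integral hx]
  rw [sub_mul] at hmain
  rw [abs_le] at hint hmain ⊢
  constructor <;> linarith

end FA.VonKoch

end
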