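import Fermat.Agent.VonKoch.Perron
import Fermat.Agent.Root.SummaryPsiOscillation
import Mathlib.NumberTheory.LSeries.SumCoeff

/-!
# Zero-free half-planes, `ψ` and the Möbius function

A half-plane `re s > β` free of zeros is equivalent to `ψ x = x + O (x ^ (β + ε))` for all `ε`
(von Koch), and to `∑_{n ≤ x} μ n = O (x ^ (β + ε))` for all `ε` (Littlewood).
-/

set_option autoImplicit false

noncomputable section

namespace FA.VonKoch

open Complex MeasureTheory Filter Topology Finset FA.ZeroFree Asymptotics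
open scoped ArithmeticFunction.vonMangoldt ArithmeticFunction.Moebius Chebyshev

variable {β ε : ℝ}

/-- The parameters. -/
theorem exists_exponent (hβ : 1 / 2 ≤ β) (hβ1 : β < 1) (hε : 0 < ε) :
    ∃ σ₁ η, β < σ₁ ∧ σ₁ ≤ 1 ∧ 0 < η ∧ η ≤ 1 / 2 ∧ σ₁ + 2 * η ≤ 1 ∧ σ₁ + 2 * η ≤ β + ε ∧
      1 / 2 ≤ σ₁ := by
  obtain ⟨e, he⟩ : ∃ e, e = min ε (1 - β) := ⟨_, rfl⟩
  have h0 : 0 < e := he ▸ lt_min hε (by linarith)
  have h1 : e ≤ ε := he ▸ min_le_left _ _
  have h2 : e ≤ 1 - β := he ▸ min_le_right _ _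
  exact ⟨β + e / 2, e / 4, by linarith, by linarith, by linarith, by linarith, by linarith,
    by linarith, by linarith⟩

/-- **von Koch's bound.** -/
theorem exists_psi_le (hβ : 1 / 2 ≤ β) (hβ1 : β < 1)
    (H : ∀ s : ℂ, β < s.re → riemannZeta₁ s ≠ 0) (hε : 0 < ε) :
    ∃ C, ∀ x : ℝ, 2 ≤ x → |ψ x - x| ≤ C * x ^ (β + ε) := by
  obtain ⟨σ₁, η, hσ, hσ1, hη, hη1, ha1, ha, hσh⟩ := exists_exponent hβ hβ1 hε
  obtain ⟨C, hC, hb⟩ := exists_growth hβ hσ hσ1 H hη
  obtain ⟨K, hK, hK'⟩ := exists_sum_le (f := errCoeff) (g := errLog)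
    (fun s hs => errLog_eq_LSeries hs) hσh hσ1 hη hη1 hC
    (fun s hs _ => differentiableAt_errLog (H s (by linarith)))
    (fun s hs hs2 => (hb s hs hs2).2.1)
  refine ⟨K + 6, fun x hx => ?_⟩
  have hx0 : 0 < x := by linarith
  obtain ⟨a, hadef⟩ : ∃ a, a = σ₁ + 2 * η := ⟨_, rfl⟩
  have hsum : ∑ n ∈ Icc 1 ⌊x⌋₊, errCoeff n = ((ψ x - ⌊x⌋₊ : ℝ) : ℂ) := by
    rw [Chebyshev.psi, show Ioc 0 ⌊x⌋₊ = Icc 1 ⌊x⌋₊ by ext k; simp; omega]
    simp [errCoeff, sum_sub_distrib]
  have hmain := hK' x (by linarith)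
  rw [hsum, Complex.norm_real, Real.norm_eq_abs, ← hadef] at hmain
  have hlast : ‖errCoeff (⌊x⌋₊ + 1)‖ ≤ 4 * x ^ a + 1 := by
    rw [errCoeff]
    refine (norm_sub_le _ _).trans ?_
    rw [norm_one, Complex.norm_real, Real.norm_eq_abs,
      abs_of_nonneg ArithmeticFunction.vonMangoldt_nonneg]
    have h1 : Λ (⌊x⌋₊ + 1) ≤ Real.log (2 * x) := by
      refine ArithmeticFunction.vonMangoldt_le_log.trans (Real.log_le_log (by positivity) ?_)
      push_cast
      linarith [Nat.floor_le hx0.le]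
    have h2 : Real.log (2 * x) ≤ (2 * x) ^ a / a :=
      Real.log_le_rpow_div (by linarith) (by linarith)
    have h3 : (2 * x) ^ a / a ≤ 2 * x ^ a / (1 / 2) := by
      rw [Real.mul_rpow two_pos.le hx0.le]
      refine div_le_div₀ (by positivity) ?_ (by norm_num) (by linarith)
      exact mul_le_mul_of_nonneg_right (Real.rpow_le_self_of_one_le one_le_two (by linarith))
        (by positivity)
    linarith
  have hpow : x ^ a ≤ x ^ (β + ε) := Real.rpow_le_rpow_of_exponent_le (by linarith) (by linarith)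
  have h1x : 1 ≤ x ^ a := Real.one_le_rpow (by linarith) (by linarith)
  have hfl : |ψ x - x| ≤ |ψ x - ⌊x⌋₊| + 1 := by
    refine (abs_sub_le _ (⌊x⌋₊ : ℝ) _).trans (add_le_add le_rfl ?_)
    rw [abs_le]
    constructor <;> linarith [Nat.floor_le hx0.le, Nat.lt_floor_add_one x]
  calc |ψ x - x| ≤ (K + 6) * x ^ a := by nlinarith
    _ ≤ _ := mul_le_mul_of_nonneg_left hpow (by linarith)

/-- The Mertens function. -/
def mertensFn (x : ℝ) : ℝ := ∑ n ∈ Icc 1 ⌊x⌋₊, (μ n : ℝ)

theorem moebius_series {s : ℂ} (hs : 1 < s.re) :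
    LSeriesSummable (fun n => ((μ n : ℤ) : ℂ)) s ∧
      LSeries (fun n => ((μ n : ℤ) : ℂ)) s = invZeta s := by
  refine ⟨ArithmeticFunction.LSeriesSummable_moebius_iff.2 hs, ?_⟩
  have h := ArithmeticFunction.LSeries_zeta_mul_Lseries_moebius hs
  rw [ArithmeticFunction.LSeries_zeta_eq_riemannZeta hs] at h
  rw [invZeta_eq fun h1 => by rw [h1] at hs; simp at hs]
  exact eq_inv_of_mul_eq_one_right h

/-- **Littlewood's bound.** -/
theorem exists_mertens_le (hβ : 1 / 2 ≤ β) (hβ1 : β < 1)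
    (H : ∀ s : ℂ, β < s.re → riemannZeta₁ s ≠ 0) (hε : 0 < ε) :
    ∃ C, ∀ x : ℝ, 1 ≤ x → |mertensFn x| ≤ C * x ^ (β + ε) := by
  obtain ⟨σ₁, η, hσ, hσ1, hη, hη1, ha1, ha, hσh⟩ := exists_exponent hβ hβ1 hε
  obtain ⟨C, hC, hb⟩ := exists_growth hβ hσ hσ1 H hη
  obtain ⟨K, hK, hK'⟩ := exists_sum_le (f := fun n => ((μ n : ℤ) : ℂ)) (g := invZeta)
    (fun s hs => moebius_series hs) hσh hσ1 hη hη1 hC
    (fun s hs _ => differentiableAt_invZeta (H s (by linarith)))
    (fun s hs hs2 => (hb s hs hs2).2.2)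
  refine ⟨K + 1, fun x hx => ?_⟩
  have hmain := hK' x hx
  have hsum : ∑ n ∈ Icc 1 ⌊x⌋₊, ((μ n : ℤ) : ℂ) = ((mertensFn x : ℝ) : ℂ) := by simp [mertensFn]
  rw [hsum, Complex.norm_real, Real.norm_eq_abs] at hmain
  have hlast : ‖((μ (⌊x⌋₊ + 1) : ℤ) : ℂ)‖ ≤ 1 := by
    rw [Complex.norm_intCast]
    exact_mod_cast ArithmeticFunction.abs_moebius_le_one
  have hpow : x ^ (σ₁ + 2 * η) ≤ x ^ (β + ε) := Real.rpow_le_rpow_of_exponent_le hx (by linarith)
  have h1x : 1 ≤ x ^ (β + ε) := Real.one_le_rpow hx (by linarith)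
  nlinarith

/-- `∑_{n ≤ t} μ n`, set to zero left of `1`. -/
def mertensPart : ℝ → ℂ := (Set.Ioi 1).indicator fun t => ((mertensFn t : ℝ) : ℂ)

theorem abs_mertensFn_le {t : ℝ} (ht : 0 ≤ t) : |mertensFn t| ≤ t := by
  refine (Finset.abs_sum_le_sum_abs _ _).trans ?_
  refine (Finset.sum_le_sum (g := fun _ => (1 : ℝ)) fun n _ => ?_).trans ?_
  · exact_mod_cast ArithmeticFunction.abs_moebius_le_one
  · simpa using Nat.floor_le ht

/-- The continuation of `1/ζ` given by a bound on the Mertens function. -/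
theorem differentiableAt_mellin_mertens {α C : ℝ}
    (h : ∀ x : ℝ, 1 ≤ x → |mertensFn x| ≤ C * x ^ α) {z : ℂ} (hz : α < z.re) :
    DifferentiableAt ℂ (fun w => mellin mertensPart (-w)) z := by
  have hmeas : Measurable mertensPart :=
    (Complex.measurable_ofReal.comp ((measurable_of_countable
      fun n : ℕ => ∑ k ∈ Icc 1 n, (μ k : ℝ)).comp Nat.measurable_floor)).indicator measurableSet_Ioi
  have hloc : LocallyIntegrableOn mertensPart (Set.Ioi 0) := by
    have hc : LocallyIntegrable (fun t : ℝ => |t|) volume := continuous_abs.locallyIntegrable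
    refine (hc.mono
      hmeas.aestronglyMeasurable (Eventually.of_forall fun t => ?_)).locallyIntegrableOn _
    rw [Real.norm_eq_abs, abs_abs, mertensPart]
    rcases le_or_gt t 1 with ht | ht
    · rw [Set.indicator_of_notMem (show t ∉ Set.Ioi (1 : ℝ) from not_lt.2 ht), norm_zero]
      exact abs_nonneg t
    · rw [Set.indicator_of_mem (Set.mem_Ioi.2 ht), Complex.norm_real, Real.norm_eq_abs]
      exact (abs_mertensFn_le (by linarith)).trans (le_abs_self t)
  have hd := mellin_differentiableAt_of_isBigO_rpow (f := mertensPart) (a := -α) (b := -z.re - 1)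
    (s := -z) hloc ?_ (by simpa using hz) ?_ (by simp)
  · exact hd.comp z differentiableAt_fun_id.neg
  · refine IsBigO.of_bound (max C 0) ((eventually_gt_atTop 1).mono fun t ht => ?_)
    rw [mertensPart, Set.indicator_of_mem (Set.mem_Ioi.2 ht), Complex.norm_real, Real.norm_eq_abs,
      neg_neg, Real.norm_of_nonneg (Real.rpow_nonneg (by linarith) _)]
    exact (h t ht.le).trans
      (mul_le_mul_of_nonneg_right (le_max_left _ _) (Real.rpow_nonneg (by linarith) _))
  · refine (isBigO_zero _ _).congr' ?_ EventuallyEq.rfl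
    filter_upwards [nhdsWithin_le_nhds (Iio_mem_nhds one_pos)] with t ht
    exact (Set.indicator_of_notMem (fun h => lt_asymm (Set.mem_Ioi.1 h) ht) _).symm

/-- A bound on the Mertens function keeps zeros out of a half-plane. -/
theorem riemannZeta₁_ne_zero_of_mertens {α C : ℝ} (hα : 0 < α)
    (h : ∀ x : ℝ, 1 ≤ x → |mertensFn x| ≤ C * x ^ α) {s : ℂ} (hs : α < s.re) :
    riemannZeta₁ s ≠ 0 := by
  obtain ⟨U, hU⟩ : ∃ U : Set ℂ, U = {z | α < z.re} := ⟨_, rfl⟩
  have hUo : IsOpen U := hU ▸ isOpen_lt continuous_const Complex.continuous_re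
  obtain ⟨P, hP⟩ : ∃ P : ℂ → ℂ, P = fun z => riemannZeta₁ z * (z * mellin mertensPart (-z)) :=
    ⟨_, rfl⟩
  have hPd : AnalyticOnNhd ℂ P U := by
    refine DifferentiableOn.analyticOnNhd (fun z hz => ?_) hUo
    rw [hU] at hz
    rw [hP]
    exact ((differentiable_riemannZeta₁ z).mul (differentiableAt_id.mul
      (differentiableAt_mellin_mertens h hz))).differentiableWithinAt
  have hev : P =ᶠ[𝓝 ((max α 1 + 1 : ℝ) : ℂ)] fun z => z - 1 := by
    filter_upwards [(isOpen_lt continuous_const Complex.continuous_re).mem_nhds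
      (show max α 1 < ((max α 1 + 1 : ℝ) : ℂ).re by simp)] with z hz
    have hz1 : 1 < z.re := lt_of_le_of_lt (le_max_right _ _) hz
    obtain ⟨hsum, hval⟩ := moebius_series hz1
    have hO : (fun n : ℕ => ∑ k ∈ Icc 1 n, ((μ k : ℤ) : ℂ)) =O[atTop]
        fun n : ℕ => (n : ℝ) ^ α := by
      refine IsBigO.of_bound (max C 0) ((eventually_ge_atTop 1).mono fun n hn => ?_)
      have h1 := h n (by exact_mod_cast hn)
      have e : ∑ k ∈ Icc 1 n, ((μ k : ℤ) : ℂ) = ((mertensFn n : ℝ) : ℂ) := by simp [mertensFn]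
      rw [e, Complex.norm_real, Real.norm_eq_abs,
        Real.norm_of_nonneg (Real.rpow_nonneg (Nat.cast_nonneg n) _)]
      exact h1.trans (mul_le_mul_of_nonneg_right (le_max_left _ _)
        (Real.rpow_nonneg (Nat.cast_nonneg n) _))
    have hI := LSeries_eq_mul_integral _ hα.le (lt_of_le_of_lt (le_max_left _ _) hz) hsum hO
    have hm : mellin mertensPart (-z) = ∫ t in Set.Ioi (1 : ℝ),
        (∑ k ∈ Icc 1 ⌊t⌋₊, ((μ k : ℤ) : ℂ)) * (t : ℂ) ^ (-(z + 1)) := by
      rw [mellin, setIntegral_eq_of_subset_of_forall_sdiff_eq_zero (s := Set.Ioi (1 : ℝ))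
        measurableSet_Ioi (Set.Ioi_subset_Ioi zero_le_one) fun t ht => by
          rw [mertensPart, Set.indicator_of_notMem ht.2, smul_zero]]
      refine setIntegral_congr_fun measurableSet_Ioi fun t ht => ?_
      rw [mertensPart, Set.indicator_of_mem ht, smul_eq_mul, mul_comm, ← neg_add']
      simp [mertensFn]
    rw [hP]
    show riemannZeta₁ z * (z * mellin mertensPart (-z)) = z - 1
    rw [hm, ← hI, hval, invZeta, mul_div_cancel₀ _ (riemannZeta₁_ne_zero_of_one_le hz1.le)]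
  have hg : AnalyticOnNhd ℂ (fun z : ℂ => z - 1) U :=
    (analyticOnNhd_id.sub analyticOnNhd_const)
  have hmem : ((max α 1 + 1 : ℝ) : ℂ) ∈ U := by
    rw [hU]
    show α < ((max α 1 + 1 : ℝ) : ℂ).re
    simp only [ofReal_re]
    linarith [le_max_left α 1]
  have heq := hPd.eqOn_of_preconnected_of_eventuallyEq hg
    (hU ▸ (convex_halfSpace_re_gt α).isPreconnected) hmem hev
  intro h0
  have h1 := heq (show s ∈ U by rw [hU]; exact hs)
  simp only [hP, h0, zero_mul] at h1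
  rw [sub_eq_zero.1 h1.symm, riemannZeta₁_one] at h0
  exact one_ne_zero h0

end FA.VonKoch

end
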