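import Fermat.Agent.VonKoch.Bounds
import Fermat.Agent.ZeroFreeRegion.Inversion

/-!
# Partial sums of a Dirichlet series continued to the left of `1`

If `g` continues `∑ f n / n ^ s` to `σ₁ ≤ re s ≤ 2` and is there `O ((1 + |im s|) ^ η)`, then
`∑_{n ≤ x} f n = O (x ^ (σ₁ + 2η)) + O (|f (⌊x⌋ + 1)|)`: shift the inverse Mellin integral of the
first moment `∑_{n ≤ x} f n (x - n)` and take its difference between `x` and `x + 1`.
-/

set_option autoImplicit false

noncomputable section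

namespace FA.VonKoch

open Complex MeasureTheory Filter Topology FA.ZeroFree
open scoped Real

variable {f : ℕ → ℂ} {g : ℂ → ℂ} {σ₁ η C : ℝ}

/-- The first moment. -/
def firstMoment (f : ℕ → ℂ) (x : ℝ) : ℂ := ∑ n ∈ Finset.Icc 1 ⌊x⌋₊, f n * ((x - n : ℝ) : ℂ)

/-- The integrand. -/
def momentFn (g : ℂ → ℂ) (x : ℝ) (s : ℂ) : ℂ := (x : ℂ) ^ s * g s / (s * (s + 1))

/-- **The inversion formula.** -/
theorem firstMoment_eq (hS : ∀ s : ℂ, 1 < s.re → LSeriesSummable f s ∧ LSeries f s = g s)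
    {x σ : ℝ} (hx : 0 < x) (hσ : 1 < σ) :
    firstMoment f x =
      (x : ℂ) * ((1 / (2 * π)) • ∫ y : ℝ, momentFn g x ((σ : ℂ) + y * I)) := by
  obtain ⟨F, hF⟩ : ∃ F : ℕ → ℝ → ℂ, F = fun n (y : ℝ) => LSeries.term f ((σ : ℂ) + y * I) n *
      ((x : ℂ) ^ ((σ : ℂ) + y * I) * (1 / (((σ : ℂ) + y * I) * ((σ : ℂ) + y * I + 1)))) :=
    ⟨_, rfl⟩
  have hre : ∀ y : ℝ, 1 < ((σ : ℂ) + y * I).re := fun y => by simpa using hσ
  have hnorm : ∀ n y, ‖F n y‖ ≤ ‖LSeries.term f (σ : ℂ) n‖ * (x ^ σ * (4 * decay y)) := by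
    intro n y
    rw [hF, norm_mul]
    refine mul_le_mul (le_of_eq ?_) ?_ (norm_nonneg _) (norm_nonneg _)
    · rw [LSeries.norm_term_eq, LSeries.norm_term_eq]
      simp
    · rw [norm_mul, norm_div, norm_one, norm_cpow_eq_rpow_re_of_pos hx]
      simp only [add_re, ofReal_re, mul_re, I_re, mul_zero, ofReal_im, I_im, mul_one, sub_self,
        add_zero]
      refine mul_le_mul_of_nonneg_left ((norm_kernel_inv_le (by linarith) y).trans ?_)
        (Real.rpow_nonneg hx.le _)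
      rw [div_eq_mul_one_div]
      exact mul_le_mul_of_nonneg_left (inv_le_decay y) (by norm_num)
  have hmeas : ∀ n, AEStronglyMeasurable (F n) volume := fun n => by
    rw [hF]
    rcases eq_or_ne n 0 with rfl | hn
    · simp
      exact aestronglyMeasurable_const
    · simp only [LSeries.term_of_ne_zero hn]
      exact Measurable.aestronglyMeasurable (by fun_prop)
  have hint : ∀ n, Integrable (F n) := fun n =>
    (((integrable_decay.const_mul 4).const_mul (x ^ σ)).const_mul _).mono' (hmeas n)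
      (Eventually.of_forall (hnorm n))
  have hsum : Summable fun n => ∫ y, ‖F n y‖ := by
    refine Summable.of_nonneg_of_le (fun n => integral_nonneg fun y => norm_nonneg _) (fun n => ?_)
      (((hS (σ : ℂ) (by simpa using hσ)).1.norm).mul_right (x ^ σ * (4 * ∫ y, decay y)))
    refine (integral_mono (hint n).norm
      (((integrable_decay.const_mul 4).const_mul (x ^ σ)).const_mul _) (hnorm n)).trans
      (le_of_eq ?_)
    rw [integral_const_mul, integral_const_mul, integral_const_mul]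
  have hterm : ∀ n, (1 / (2 * π)) • ∫ y, F n y =
      if n = 0 then 0 else f n * (tent (n / x) : ℂ) := by
    intro n
    rw [hF]
    rcases eq_or_ne n 0 with rfl | hn
    · simp
    · have hn0 : (0 : ℝ) < n := Nat.cast_pos.2 (Nat.pos_of_ne_zero hn)
      rw [if_neg hn, ← tent_inversion (σ := σ) (by linarith) (div_pos hn0 hx),
        mul_smul_comm, ← integral_const_mul]
      congr 2
      funext y
      simp only
      rw [LSeries.term_of_ne_zero hn, smul_eq_mul, Complex.ofReal_div,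
        smoothErr_eq.div_cpow_ofReal_nonneg' hn0 hx,
        cpow_neg, cpow_neg, Complex.ofReal_natCast]
      field_simp
  have hswap := integral_tsum_of_summable_integral_norm hint hsum
  have hfun : (fun y => ∑' n, F n y) = fun y : ℝ => momentFn g x ((σ : ℂ) + y * I) := by
    funext y
    rw [hF, tsum_mul_right, momentFn, ← (hS _ (hre y)).2, LSeries]
    ring
  rw [← hfun, ← hswap, ← tsum_const_smul'', tsum_congr hterm,
    tsum_eq_sum (s := Finset.Icc 1 ⌊x⌋₊) fun n hn => ?_, firstMoment, Finset.mul_sum]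
  · refine Finset.sum_congr rfl fun n hn => ?_
    rw [Finset.mem_Icc] at hn
    have : (n : ℝ) ≤ x := (Nat.cast_le.2 hn.2).trans (Nat.floor_le hx.le)
    rw [if_neg (by omega), tent, max_eq_left (by rw [sub_nonneg, div_le_one hx]; exact this)]
    have hx' : (x : ℂ) ≠ 0 := ofReal_ne_zero.2 hx.ne'
    push_cast
    field_simp
  · rw [Finset.mem_Icc] at hn
    rcases eq_or_ne n 0 with rfl | h0
    · simp
    · have : x < n := Nat.lt_of_floor_lt (by omega)
      rw [if_neg h0, tent, max_eq_right (by rw [sub_nonpos, one_le_div hx]; exact this.le)]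
      simp

theorem weight_le_quarter (hη1 : η ≤ 1 / 2) (y : ℝ) :
    weight η y ≤ (1 + y ^ 2) ^ (1 / 4 : ℝ) :=
  Real.rpow_le_rpow_of_exponent_le (by nlinarith [sq_nonneg y]) (by linarith)

/-- The integrand in the strip. -/
theorem momentFn_bound (hσ₁ : 1 / 2 ≤ σ₁) (hη1 : η ≤ 1 / 2) (hC : 0 ≤ C)
    (hd : ∀ s : ℂ, σ₁ ≤ s.re → s.re ≤ 2 → DifferentiableAt ℂ g s)
    (hb : ∀ s : ℂ, σ₁ ≤ s.re → s.re ≤ 2 → ‖g s‖ ≤ C * weight η s.im)
    {x : ℝ} (hx : 0 < x) {σ : ℝ} (h1 : σ₁ ≤ σ) (h2 : σ ≤ 2) (y : ℝ) :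
    DifferentiableAt ℂ (momentFn g x) ((σ : ℂ) + y * I) ∧
      ‖momentFn g x ((σ : ℂ) + y * I)‖ ≤ 4 * C * x ^ σ * decay y := by
  have hs0 : (σ : ℂ) + y * I ≠ 0 := fun h => by
    have := congrArg Complex.re h
    simp at this
    linarith
  have hs1 : (σ : ℂ) + y * I + 1 ≠ 0 := fun h => by
    have := congrArg Complex.re h
    simp at this
    linarith
  have hb' := hb ((σ : ℂ) + y * I) (by simpa using h1) (by simpa using h2)
  simp only [add_im, ofReal_im, mul_im, ofReal_re, I_im, I_re, mul_zero, mul_one, zero_add,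
    add_zero] at hb'
  refine ⟨((differentiableAt_id.const_cpow (Or.inl (ofReal_ne_zero.2 hx.ne'))).mul
    (hd _ (by simpa using h1) (by simpa using h2))).div (by fun_prop) (mul_ne_zero hs0 hs1), ?_⟩
  rw [momentFn, norm_div, norm_mul, norm_cpow_eq_rpow_re_of_pos hx]
  simp only [add_re, ofReal_re, mul_re, I_re, mul_zero, ofReal_im, I_im, mul_one, sub_self,
    add_zero]
  rw [div_eq_mul_one_div]
  have e : (1 + y ^ 2) ^ (1 / 4 : ℝ) * (1 / (1 + y ^ 2)) = decay y := by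
    rw [decay, one_div (1 + y ^ 2), ← Real.rpow_neg_one, ← Real.rpow_add (by positivity)]
    norm_num
  calc x ^ σ * ‖g ((σ : ℂ) + y * I)‖ *
        (1 / ‖((σ : ℂ) + y * I) * ((σ : ℂ) + y * I + 1)‖)
      ≤ x ^ σ * (C * (1 + y ^ 2) ^ (1 / 4 : ℝ)) * (4 / (1 + y ^ 2)) := by
        refine mul_le_mul ?_ (norm_kernel_inv_le (hσ₁.trans h1) y) (by positivity)
          (by positivity)
        exact mul_le_mul_of_nonneg_left (hb'.trans
          (mul_le_mul_of_nonneg_left (weight_le_quarter hη1 y) hC)) (Real.rpow_nonneg hx.le _)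
    _ = 4 * C * x ^ σ * ((1 + y ^ 2) ^ (1 / 4 : ℝ) * (1 / (1 + y ^ 2))) := by ring
    _ = _ := by rw [e]

/-- **The shift of the line.** -/
theorem integral_momentFn_shift (hσ₁ : 1 / 2 ≤ σ₁) (hσ1 : σ₁ ≤ 1) (hη1 : η ≤ 1 / 2) (hC : 0 ≤ C)
    (hd : ∀ s : ℂ, σ₁ ≤ s.re → s.re ≤ 2 → DifferentiableAt ℂ g s)
    (hb : ∀ s : ℂ, σ₁ ≤ s.re → s.re ≤ 2 → ‖g s‖ ≤ C * weight η s.im) {x : ℝ} (hx : 0 < x) :
    (∫ y : ℝ, momentFn g x ((σ₁ : ℂ) + y * I)) =
      ∫ y : ℝ, momentFn g x (((3 / 2 : ℝ) : ℂ) + y * I) := by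
  have hB := fun {σ : ℝ} (h1 : σ₁ ≤ σ) (h2 : σ ≤ 2) (y : ℝ) =>
    momentFn_bound hσ₁ hη1 hC hd hb hx h1 h2 y
  have hint : ∀ σ : ℝ, σ₁ ≤ σ → σ ≤ 2 →
      Integrable fun y : ℝ => momentFn g x ((σ : ℂ) + y * I) := fun σ h1 h2 => by
    refine (integrable_decay.const_mul (4 * C * x ^ σ)).mono' ?_
      (Eventually.of_forall fun y => (hB h1 h2 y).2)
    refine (continuous_iff_continuousAt.2 fun y => ?_).aestronglyMeasurable
    exact ContinuousAt.comp' (g := momentFn g x) (hB h1 h2 y).1.continuousAt (by fun_prop)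
  obtain ⟨X, hX⟩ : ∃ X, X = max (x ^ σ₁) (x ^ (3 / 2 : ℝ)) := ⟨_, rfl⟩
  have hXu : ∀ u : ℝ, σ₁ ≤ u → u ≤ 3 / 2 → x ^ u ≤ X := fun u h1 h2 => by
    rw [hX]
    rcases le_total 1 x with h | h
    · exact (Real.rpow_le_rpow_of_exponent_le h h2).trans (le_max_right _ _)
    · exact (Real.rpow_le_rpow_of_exponent_ge hx h h1).trans (le_max_left _ _)
  have hhor : ∀ T : ℝ, ‖∫ u in σ₁..(3 / 2 : ℝ), momentFn g x ((u : ℂ) + (T : ℂ) * I)‖ ≤
      4 * C * X * decay T * (3 / 2 - σ₁) := fun T => by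
    refine (intervalIntegral.norm_integral_le_of_norm_le_const
      (C := 4 * C * X * decay T) fun u hu => ?_).trans (le_of_eq ?_)
    · rw [Set.uIoc_of_le (by linarith)] at hu
      refine (hB hu.1.le (by linarith [hu.2]) T).2.trans ?_
      gcongr
      · exact (decay_pos T).le
      · exact hXu u hu.1.le hu.2
    · rw [abs_of_nonneg (by linarith)]
  have hrect : ∀ T : ℝ, 0 ≤ T →
      ‖(∫ y in (-T)..T, momentFn g x (((3 / 2 : ℝ) : ℂ) + y * I)) -
        ∫ y in (-T)..T, momentFn g x ((σ₁ : ℂ) + y * I)‖ ≤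
          2 * (4 * C * X * decay T * (3 / 2 - σ₁)) := by
    intro T hT
    have h := Complex.integral_boundary_rect_eq_zero_of_differentiableOn (momentFn g x)
      ((σ₁ : ℂ) + ((-T : ℝ) : ℂ) * I) (((3 / 2 : ℝ) : ℂ) + (T : ℂ) * I) (fun s hs => by
        rw [Complex.mem_reProdIm] at hs
        simp only [add_re, ofReal_re, mul_re, I_re, mul_zero, ofReal_im, I_im, mul_one, sub_self,
          add_zero, add_im, mul_im, zero_add, Set.uIcc_of_le (by linarith : σ₁ ≤ 3 / 2),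
          Set.uIcc_of_le (show -T ≤ T by linarith)] at hs
        have := (hB hs.1.1 (hs.1.2.trans (by norm_num)) s.im).1
        rw [Complex.re_add_im] at this
        exact this.differentiableWithinAt)
    simp only [add_re, ofReal_re, mul_re, I_re, mul_zero, ofReal_im, I_im, mul_one, sub_self,
      add_zero, add_im, mul_im, zero_add, smul_eq_mul] at h
    obtain ⟨P, hP⟩ : ∃ P : ℝ → ℂ, P = fun v : ℝ =>
        ∫ u in σ₁..(3 / 2 : ℝ), momentFn g x ((u : ℂ) + (v : ℂ) * I) := ⟨_, rfl⟩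
    have e : I * ((∫ y in (-T)..T, momentFn g x (((3 / 2 : ℝ) : ℂ) + y * I)) -
        ∫ y in (-T)..T, momentFn g x ((σ₁ : ℂ) + y * I)) = P T - P (-T) := by
      rw [hP]
      linear_combination h
    have e2 := congrArg (fun z : ℂ => ‖z‖) e
    simp only [norm_mul, Complex.norm_I, one_mul] at e2
    rw [e2, two_mul, hP]
    refine (norm_sub_le _ _).trans (add_le_add (hhor T) ?_)
    have := hhor (-T)
    rwa [show decay (-T) = decay T by simp [decay]] at this
  have t1 := intervalIntegral_tendsto_integral (hint σ₁ le_rfl (by linarith))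
    tendsto_neg_atTop_atBot tendsto_id
  have t2 := intervalIntegral_tendsto_integral (hint (3 / 2) (by linarith) (by norm_num))
    tendsto_neg_atTop_atBot tendsto_id
  have t3 : Tendsto (fun T : ℝ => 2 * (4 * C * X * decay T * (3 / 2 - σ₁))) atTop (𝓝 0) := by
    have h0 : Tendsto decay atTop (𝓝 0) :=
      tendsto_of_tendsto_of_tendsto_of_le_of_le' tendsto_const_nhds
        (tendsto_rpow_neg_atTop (show (0 : ℝ) < 3 / 2 by norm_num))
        (Eventually.of_forall fun y => (decay_pos y).le)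
        ((eventually_gt_atTop 0).mono fun y hy => decay_le hy)
    simpa using ((h0.const_mul (4 * C * X)).mul_const (3 / 2 - σ₁)).const_mul 2
  have t4 := squeeze_zero_norm' (a := fun T : ℝ => 2 * (4 * C * X * decay T * (3 / 2 - σ₁)))
    ((eventually_ge_atTop 0).mono fun T hT => hrect T hT) t3
  exact (sub_eq_zero.1 (tendsto_nhds_unique (t2.sub t1) t4)).symm

/-- The difference of the kernel between `x` and `x + 1`. -/
theorem norm_kernel_diff_le {x σ b : ℝ} (hx : 1 ≤ x) (hσ : 1 / 2 ≤ σ) (hb0 : 0 ≤ b) (hb1 : b ≤ 1)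
    (y : ℝ) :
    ‖(((x + 1 : ℝ) : ℂ) ^ ((σ : ℂ) + y * I + 1) - (x : ℂ) ^ ((σ : ℂ) + y * I + 1)) /
        (((σ : ℂ) + y * I) * ((σ : ℂ) + y * I + 1))‖ ≤
      8 * (2 * x) ^ (σ + b) * (1 + y ^ 2) ^ (-(1 + b) / 2) := by
  obtain ⟨s, hs⟩ : ∃ s : ℂ, s = (σ : ℂ) + y * I := ⟨_, rfl⟩
  rw [← hs]
  have hre : s.re = σ := by simp [hs]
  have him : s.im = y := by simp [hs]
  have hx0 : 0 < x := by linarith
  obtain ⟨A, hA⟩ : ∃ A, A = (2 * x) ^ σ := ⟨_, rfl⟩
  obtain ⟨Q, hQ⟩ : ∃ Q, Q = √(1 + y ^ 2) := ⟨_, rfl⟩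
  have hA0 : 0 < A := hA ▸ Real.rpow_pos_of_pos (by linarith) _
  have hQ0 : 0 < Q := hQ ▸ Real.sqrt_pos.2 (by positivity)
  have hQs : Q / 2 ≤ ‖s‖ := by
    rw [← sq_le_sq₀ (by positivity) (norm_nonneg _), Complex.sq_norm, Complex.normSq_apply, hre,
      him, div_pow, hQ, Real.sq_sqrt (by positivity)]
    nlinarith
  have hs1 : ‖s‖ ≤ ‖s + 1‖ := by
    rw [← sq_le_sq₀ (norm_nonneg _) (norm_nonneg _), Complex.sq_norm, Complex.sq_norm,
      Complex.normSq_apply, Complex.normSq_apply, add_re, add_im, one_re, one_im, hre, him]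
    nlinarith
  have hsp : 0 < ‖s‖ := lt_of_lt_of_le (by positivity) hQs
  obtain ⟨N, hN⟩ : ∃ N, N = ‖((x + 1 : ℝ) : ℂ) ^ (s + 1) - (x : ℂ) ^ (s + 1)‖ := ⟨_, rfl⟩
  have hN1 : N ≤ ‖s + 1‖ * A := by
    have h := (convex_Icc x (x + 1)).norm_image_sub_le_of_norm_hasDerivWithin_le
      (f := fun t : ℝ => (t : ℂ) ^ (s + 1)) (f' := fun t : ℝ => (s + 1) * (t : ℂ) ^ (s + 1 - 1))
      (C := ‖s + 1‖ * A) (fun t ht => (hasDerivAt_ofReal_cpow_const (by linarith [ht.1])
        (fun h => by have := congrArg Complex.re h; simp [hre] at this; linarith)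
          ).hasDerivWithinAt) (fun t ht => ?_) (Set.left_mem_Icc.2 (by linarith))
      (Set.right_mem_Icc.2 (by linarith))
    · rw [hN]
      refine h.trans (le_of_eq ?_)
      rw [Real.norm_eq_abs, add_sub_cancel_left, abs_one, mul_one]
    · rw [add_sub_cancel_right, norm_mul, norm_cpow_eq_rpow_re_of_pos (by linarith [ht.1]), hre,
        hA]
      gcongr
      · linarith [ht.1]
      · linarith [ht.2]
  have hN2 : N ≤ 2 * A * (2 * x) := by
    have e1 : ∀ t : ℝ, 0 < t → t ≤ 2 * x → ‖(t : ℂ) ^ (s + 1)‖ ≤ A * (2 * x) := fun t ht ht2 => by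
      rw [norm_cpow_eq_rpow_re_of_pos ht, add_re, one_re, hre, hA,
        ← Real.rpow_add_one (by linarith)]
      exact Real.rpow_le_rpow ht.le ht2 (by linarith)
    rw [hN]
    refine (norm_sub_le _ _).trans ?_
    linarith [e1 (x + 1) (by linarith) (by linarith), e1 x hx0 (by linarith)]
  obtain ⟨k, hk⟩ : ∃ k, k = N / (‖s‖ * ‖s + 1‖) := ⟨_, rfl⟩
  rw [norm_div, norm_mul, ← hN, ← hk]
  have hN0 : 0 ≤ N := hN ▸ norm_nonneg _
  have hk0 : 0 ≤ k := hk ▸ by positivity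
  have k1 : k ≤ 8 * A / Q := by
    rw [hk, div_le_div_iff₀ (by nlinarith) hQ0]
    nlinarith [mul_le_mul_of_nonneg_right hN1 hQ0.le,
      mul_le_mul_of_nonneg_left hQs (show 0 ≤ 8 * A * ‖s + 1‖ by positivity),
      mul_nonneg (mul_nonneg (norm_nonneg (s + 1)) hA0.le) hQ0.le]
  have k2 : k ≤ 8 * A * (2 * x) / Q ^ 2 := by
    rw [hk, div_le_div_iff₀ (by nlinarith) (by positivity)]
    have h1 : Q ^ 2 ≤ 4 * (‖s‖ * ‖s + 1‖) := by
      nlinarith [mul_le_mul hQs (hQs.trans hs1) (by positivity) hsp.le]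
    calc N * Q ^ 2 ≤ 2 * A * (2 * x) * (4 * (‖s‖ * ‖s + 1‖)) :=
          mul_le_mul hN2 h1 (by positivity) (by positivity)
      _ = _ := by ring
  have h8 : 0 ≤ 8 * A / Q := by positivity
  calc k = k ^ (1 - b) * k ^ b := by
        rw [← Real.rpow_add' hk0 (by norm_num), sub_add_cancel, Real.rpow_one]
    _ ≤ (8 * A / Q) ^ (1 - b) * (8 * A * (2 * x) / Q ^ 2) ^ b :=
        mul_le_mul (Real.rpow_le_rpow hk0 k1 (by linarith)) (Real.rpow_le_rpow hk0 k2 hb0)
          (Real.rpow_nonneg hk0 _) (Real.rpow_nonneg h8 _)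
    _ = (8 * A / Q) ^ (1 - b) * ((8 * A / Q) ^ b * (2 * x / Q) ^ b) := by
        rw [← Real.mul_rpow h8 (by positivity)]
        congr 2
        field_simp
    _ = 8 * A / Q * ((2 * x) ^ b / Q ^ b) := by
        rw [← mul_assoc, ← Real.rpow_add' h8 (by norm_num), sub_add_cancel, Real.rpow_one,
          Real.div_rpow (by linarith) hQ0.le]
    _ = 8 * (A * (2 * x) ^ b) * (Q * Q ^ b)⁻¹ := by field_simp
    _ = _ := by
        rw [hA, ← Real.rpow_add (by linarith), ← Real.rpow_one_add' hQ0.le (by linarith),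
          ← Real.rpow_neg hQ0.le, hQ, Real.sqrt_eq_rpow, ← Real.rpow_mul (by positivity)]
        congr 2
        ring

/-- **The bound for the partial sums.** -/
theorem exists_sum_le (hS : ∀ s : ℂ, 1 < s.re → LSeriesSummable f s ∧ LSeries f s = g s)
    (hσ₁ : 1 / 2 ≤ σ₁) (hσ1 : σ₁ ≤ 1) (hη : 0 < η) (hη1 : η ≤ 1 / 2) (hC : 0 ≤ C)
    (hd : ∀ s : ℂ, σ₁ ≤ s.re → s.re ≤ 2 → DifferentiableAt ℂ g s)
    (hb : ∀ s : ℂ, σ₁ ≤ s.re → s.re ≤ 2 → ‖g s‖ ≤ C * weight η s.im) :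
    ∃ K, 0 ≤ K ∧ ∀ x : ℝ, 1 ≤ x →
      ‖∑ n ∈ Finset.Icc 1 ⌊x⌋₊, f n‖ ≤ K * x ^ (σ₁ + 2 * η) + ‖f (⌊x⌋₊ + 1)‖ := by
  obtain ⟨W, hW⟩ : ∃ W : ℝ → ℝ, W = fun y => (1 + y ^ 2) ^ (-(1 + η) / 2) := ⟨_, rfl⟩
  have hWi : Integrable W := by
    have h := integrable_rpow_neg_one_add_norm_sq (E := ℝ) (μ := volume) (r := 1 + η)
      (by simpa using hη)
    refine h.congr (Eventually.of_forall fun y => ?_)
    simp [hW]
  obtain ⟨J, hJ⟩ : ∃ J, J = ∫ y, W y := ⟨_, rfl⟩
  have hJ0 : 0 ≤ J := hJ ▸ integral_nonneg fun y => by rw [hW]; positivity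
  refine ⟨8 * C * 4 * J, by positivity, fun x hx => ?_⟩
  have hx0 : 0 < x := by linarith
  have hline : ∀ z : ℝ, 0 < z →
      firstMoment f z = (z : ℂ) * ((1 / (2 * π)) • ∫ y : ℝ, momentFn g z ((σ₁ : ℂ) + y * I)) :=
    fun z hz => by
      rw [integral_momentFn_shift hσ₁ hσ1 hη1 hC hd hb hz,
        firstMoment_eq hS hz (by norm_num : (1 : ℝ) < 3 / 2)]
  have hint : ∀ z : ℝ, 0 < z → Integrable fun y : ℝ => momentFn g z ((σ₁ : ℂ) + y * I) :=
    fun z hz => by
      refine (integrable_decay.const_mul (4 * C * z ^ σ₁)).mono' ?_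
        (Eventually.of_forall fun y =>
          (momentFn_bound hσ₁ hη1 hC hd hb hz le_rfl (by linarith) y).2)
      refine (continuous_iff_continuousAt.2 fun y => ?_).aestronglyMeasurable
      exact ContinuousAt.comp' (g := momentFn g z)
        (momentFn_bound hσ₁ hη1 hC hd hb hz le_rfl (by linarith) y).1.continuousAt (by fun_prop)
  have hsum : firstMoment f (x + 1) - firstMoment f x =
      (∑ n ∈ Finset.Icc 1 ⌊x⌋₊, f n) + f (⌊x⌋₊ + 1) * ((x - ⌊x⌋₊ : ℝ) : ℂ) := by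
    rw [firstMoment, firstMoment, Nat.floor_add_one hx0.le, Finset.sum_Icc_succ_top (by omega),
      add_sub_right_comm, ← Finset.sum_sub_distrib]
    congr 1
    · refine Finset.sum_congr rfl fun n _ => ?_
      push_cast
      ring
    · push_cast
      ring
  have hdiff : ‖firstMoment f (x + 1) - firstMoment f x‖ ≤
      8 * C * 4 * J * x ^ (σ₁ + 2 * η) := by
    rw [hline _ (by linarith : (0 : ℝ) < x + 1), hline _ hx0, mul_smul_comm, mul_smul_comm,
      ← smul_sub, ← integral_const_mul, ← integral_const_mul,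
      ← integral_sub ((hint _ (by linarith)).const_mul _) ((hint _ hx0).const_mul _), norm_smul,
      Real.norm_eq_abs, abs_of_pos (by positivity)]
    have hpi : 1 / (2 * π) ≤ 1 := by
      rw [div_le_one (by positivity)]
      linarith [Real.two_le_pi]
    refine (mul_le_of_le_one_left (norm_nonneg _) hpi).trans ?_
    refine (norm_integral_le_of_norm_le (hWi.const_mul (8 * C * (2 * x) ^ (σ₁ + 2 * η)))
      (Eventually.of_forall fun y => ?_)).trans ?_
    · have hkey : ((x + 1 : ℝ) : ℂ) * momentFn g (x + 1) ((σ₁ : ℂ) + y * I) -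
          (x : ℂ) * momentFn g x ((σ₁ : ℂ) + y * I) =
          g ((σ₁ : ℂ) + y * I) * ((((x + 1 : ℝ) : ℂ) ^ ((σ₁ : ℂ) + y * I + 1) -
            (x : ℂ) ^ ((σ₁ : ℂ) + y * I + 1)) /
              (((σ₁ : ℂ) + y * I) * ((σ₁ : ℂ) + y * I + 1))) := by
        rw [momentFn, momentFn,
          cpow_add ((σ₁ : ℂ) + y * I) 1 (ofReal_ne_zero.2 (by linarith : x + 1 ≠ 0)),
          cpow_add ((σ₁ : ℂ) + y * I) 1 (ofReal_ne_zero.2 hx0.ne'), cpow_one, cpow_one]
        ring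
      rw [hkey, norm_mul]
      have h1 := hb ((σ₁ : ℂ) + y * I) (by simp) (by simp; linarith)
      simp only [add_im, ofReal_im, mul_im, ofReal_re, I_im, I_re, mul_zero, mul_one, zero_add,
        add_zero] at h1
      refine (mul_le_mul h1 (norm_kernel_diff_le hx hσ₁ (by linarith : (0 : ℝ) ≤ 2 * η)
        (by linarith) y) (norm_nonneg _) (by unfold weight; positivity)).trans (le_of_eq ?_)
      have e : weight η y * (1 + y ^ 2) ^ (-(1 + 2 * η) / 2) = W y := by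
        rw [hW, weight, ← Real.rpow_add (by positivity)]
        congr 1
        ring
      rw [← e]
      ring
    · rw [integral_const_mul, ← hJ, Real.mul_rpow two_pos.le hx0.le]
      have h2 : (2 : ℝ) ^ (σ₁ + 2 * η) ≤ 4 := by
        calc (2 : ℝ) ^ (σ₁ + 2 * η) ≤ 2 ^ (2 : ℝ) :=
              Real.rpow_le_rpow_of_exponent_le one_le_two (by linarith)
          _ = 4 := by norm_num
      calc 8 * C * (2 ^ (σ₁ + 2 * η) * x ^ (σ₁ + 2 * η)) * J
          ≤ 8 * C * (4 * x ^ (σ₁ + 2 * η)) * J := by gcongr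
        _ = _ := by ring
  have hlast : ‖f (⌊x⌋₊ + 1) * ((x - ⌊x⌋₊ : ℝ) : ℂ)‖ ≤ ‖f (⌊x⌋₊ + 1)‖ := by
    rw [norm_mul, Complex.norm_real, Real.norm_eq_abs]
    refine mul_le_of_le_one_right (norm_nonneg _) ?_
    rw [abs_of_nonneg (sub_nonneg.2 (Nat.floor_le hx0.le))]
    linarith [Nat.lt_floor_add_one x]
  rw [hsum] at hdiff
  have := norm_sub_le ((∑ n ∈ Finset.Icc 1 ⌊x⌋₊, f n) + f (⌊x⌋₊ + 1) * ((x - ⌊x⌋₊ : ℝ) : ℂ))
    (f (⌊x⌋₊ + 1) * ((x - ⌊x⌋₊ : ℝ) : ℂ))
  rw [add_sub_cancel_right] at this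
  linarith

end FA.VonKoch

end
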