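import Fermat.Agent.DelaValleePoussin.Region
import Mathlib.Analysis.Complex.Hadamard
import Mathlib.Analysis.MeanInequalities

/-!
# Littlewood's bounds in a zero-free half-plane

If `ζ` has no zero with `re s > θ`, then on `re s ≥ σ₁ > θ` the logarithm of `ζ` is `o (log |t|)`:
the theorem of Borel and Carathéodory bounds it by `O (log |t|)`, it is bounded to the right of
`1`, and Hadamard's three circles theorem interpolates. So `ζ`, `1/ζ` and `ζ'/ζ` are `O (|t| ^ η)`
for every `η > 0`.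
-/

set_option autoImplicit false

noncomputable section

namespace FA.VonKoch

open Complex Metric Set FA.ZeroFree FA.DLVP
open scoped ArithmeticFunction.vonMangoldt

/-- Hadamard's three circles. -/
theorem norm_le_three_circles {h : ℂ → ℂ} {R r₁ r₂ r₃ M₁ M₃ : ℝ} (h1 : 0 < r₁) (h12 : r₁ < r₂)
    (h23 : r₂ < r₃) (h3 : r₃ < R) (hd : DifferentiableOn ℂ h (ball 0 R))
    (hM₁ : ∀ z : ℂ, ‖z‖ = r₁ → ‖h z‖ ≤ M₁) (hM₃ : ∀ z : ℂ, ‖z‖ = r₃ → ‖h z‖ ≤ M₃)
    {z : ℂ} (hz : ‖z‖ ≤ r₂) :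
    ‖h z‖ ≤ M₁ ^ (1 - (Real.log r₂ - Real.log r₁) / (Real.log r₃ - Real.log r₁)) *
      M₃ ^ ((Real.log r₂ - Real.log r₁) / (Real.log r₃ - Real.log r₁)) := by
  have h2 : 0 < r₂ := h1.trans h12
  refine norm_le_of_sphere (U := ball 0 R) (closedBall_subset_ball (h23.trans h3)) h2 hd
    (fun w hw => ?_) (mem_closedBall_zero_iff.2 hz)
  rw [mem_sphere_zero_iff_norm] at hw
  have hw0 : w ≠ 0 := fun h' => by rw [h', norm_zero] at hw; linarith
  have hlu : Real.log r₁ < Real.log r₃ := Real.log_lt_log h1 (h12.trans h23)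
  have hmem : ∀ v : ℂ, v.re ≤ Real.log r₃ → Complex.exp v ∈ closedBall (0 : ℂ) r₃ := fun v hv => by
    rw [mem_closedBall_zero_iff, Complex.norm_exp,
      ← Real.exp_log (h1.trans (h12.trans h23))]
    exact Real.exp_le_exp.2 hv
  have hdiff : DiffContOnCl ℂ (fun v => h (Complex.exp v))
      (HadamardThreeLines.verticalStrip (Real.log r₁) (Real.log r₃)) := by
    refine DifferentiableOn.diffContOnCl ?_
    rw [HadamardThreeLines.verticalStrip, closure_preimage_re, closure_Ioo hlu.ne]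
    intro v hv
    have hb : Complex.exp v ∈ ball (0 : ℂ) R := closedBall_subset_ball h3 (hmem v hv.2)
    exact ((hd.differentiableAt (isOpen_ball.mem_nhds hb)).comp v
      Complex.differentiable_exp.differentiableAt).differentiableWithinAt
  obtain ⟨M, hM⟩ := (isCompact_closedBall (0 : ℂ) r₃).exists_bound_of_continuousOn
    (hd.continuousOn.mono (closedBall_subset_ball h3))
  have key := HadamardThreeLines.norm_le_interp_of_mem_verticalClosedStrip' hlu
    (z := Complex.log w) ?_ hdiff ?_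
    (fun v hv => hM₁ _ (by
      rw [Complex.norm_exp, show v.re = Real.log r₁ from hv, Real.exp_log h1]))
    (fun v hv => hM₃ _ (by
      rw [Complex.norm_exp, show v.re = Real.log r₃ from hv,
        Real.exp_log (h1.trans (h12.trans h23))]))
  · simp only [Complex.exp_log hw0, Complex.log_re, hw] at key
    exact key
  · simp only [HadamardThreeLines.verticalClosedStrip, mem_preimage, Complex.log_re, hw, mem_Icc]
    exact ⟨Real.log_le_log h1 h12.le, Real.log_le_log h2 h23.le⟩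
  · refine ⟨M, ?_⟩
    rintro _ ⟨v, hv, rfl⟩
    exact hM _ (hmem v hv.2)

/-- `x ^ a` is `o (x)`. -/
theorem exists_interp_le {a M η : ℝ} (ha0 : 0 ≤ a) (ha1 : a < 1) (hM : 0 ≤ M) (hη : 0 < η) :
    ∃ K, ∀ y : ℝ, 0 ≤ y → M ^ (1 - a) * y ^ a ≤ η * y + K := by
  obtain ⟨μ, hμ⟩ : ∃ μ, μ = η ^ (-(a / (1 - a))) := ⟨_, rfl⟩
  have hμ0 : 0 < μ := hμ ▸ Real.rpow_pos_of_pos hη _
  refine ⟨(1 - a) * (μ * M), fun y hy => ?_⟩
  have h := Real.geom_mean_le_arith_mean2_weighted (show (0 : ℝ) ≤ 1 - a by linarith) ha0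
    (mul_nonneg hμ0.le hM) (mul_nonneg hη.le hy) (by ring)
  have e : μ ^ (1 - a) * η ^ a = 1 := by
    rw [hμ, ← Real.rpow_mul hη.le, ← Real.rpow_add hη, neg_mul,
      div_mul_cancel₀ _ (by linarith : (1 : ℝ) - a ≠ 0), neg_add_cancel, Real.rpow_zero]
  rw [Real.mul_rpow hμ0.le hM, Real.mul_rpow hη.le hy] at h
  calc M ^ (1 - a) * y ^ a = μ ^ (1 - a) * η ^ a * (M ^ (1 - a) * y ^ a) := by rw [e, one_mul]
    _ = μ ^ (1 - a) * M ^ (1 - a) * (η ^ a * y ^ a) := by ring
    _ ≤ _ := h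
    _ ≤ _ := by nlinarith [mul_nonneg hη.le hy]

/-- The bounds at one height, for the logarithm on the disc around `3/2 + it`. -/
theorem exists_log_disc {θ σ₁ : ℝ} (hθ : 1 / 2 ≤ θ) (hσ : θ < σ₁) (hσ1 : σ₁ ≤ 1)
    (H : ∀ s : ℂ, θ < s.re → riemannZeta₁ s ≠ 0) {η : ℝ} (hη : 0 < η) :
    ∃ K C, 0 ≤ K ∧ 0 ≤ C ∧ ∀ t : ℝ, 3 ≤ |t| → ∀ σ : ℝ, σ₁ ≤ σ → σ ≤ 3 / 2 →
      ‖riemannZeta ((σ : ℂ) + t * I)‖ ≤ 8 * Real.exp (η * ell t + K) ∧
      ‖(riemannZeta ((σ : ℂ) + t * I))⁻¹‖ ≤ 8 * Real.exp (η * ell t + K) ∧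
      ‖deriv riemannZeta ((σ : ℂ) + t * I) / riemannZeta ((σ : ℂ) + t * I)‖ ≤ C * ell t := by
  obtain ⟨C₀, hC₀, hreal⟩ := exists_real_bound
  obtain ⟨g, hg⟩ : ∃ g, g = σ₁ - θ := ⟨_, rfl⟩
  obtain ⟨R, hR⟩ : ∃ R, R = 3 / 2 - θ - g / 4 := ⟨_, rfl⟩
  obtain ⟨r₃, hr₃⟩ : ∃ r₃, r₃ = R - g / 4 := ⟨_, rfl⟩
  obtain ⟨r₂, hr₂⟩ : ∃ r₂, r₂ = 3 / 2 - σ₁ := ⟨_, rfl⟩
  have hg0 : 0 < g := by linarith
  have hR1 : R ≤ 1 := by linarith
  have h12 : 1 / 4 < r₂ := by linarith
  have h23 : r₂ < r₃ := by linarith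
  have h3 : r₃ < R := by linarith
  obtain ⟨a, ha⟩ : ∃ a, a = (Real.log r₂ - Real.log (1 / 4)) /
      (Real.log r₃ - Real.log (1 / 4)) := ⟨_, rfl⟩
  have hl12 : Real.log (1 / 4) < Real.log r₂ := Real.log_lt_log (by norm_num) h12
  have hl23 : Real.log r₂ < Real.log r₃ := Real.log_lt_log (by linarith) h23
  have ha0 : 0 ≤ a := ha ▸ div_nonneg (by linarith) (by linarith)
  have ha1 : a < 1 := by
    rw [ha, div_lt_one (by linarith)]
    linarith
  obtain ⟨M₁, hM₁⟩ : ∃ M₁, M₁ = (4 + C₀) / 4 := ⟨_, rfl⟩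
  obtain ⟨K, hK⟩ := exists_interp_le ha0 ha1 (show 0 ≤ M₁ by linarith)
    (show 0 < η * g / 16 by positivity)
  refine ⟨|K|, 32 / g ^ 2, abs_nonneg _, by positivity, fun t ht σ hσ' hσ2 => ?_⟩
  obtain ⟨s₀, hs₀⟩ : ∃ s₀ : ℂ, s₀ = ((1 + 1 / 2 : ℝ) : ℂ) + t * I := ⟨_, rfl⟩
  have hre : s₀.re = 3 / 2 := by simp [hs₀]; norm_num
  have him : s₀.im = t := by simp [hs₀]
  obtain ⟨f, hf⟩ : ∃ f : ℂ → ℂ, f = fun z => riemannZeta (s₀ + z) := ⟨_, rfl⟩
  have hpt : ∀ z ∈ ball (0 : ℂ) R, s₀ + z ≠ 1 ∧ f z ≠ 0 ∧ ‖f z‖ ≤ 5 * (|t| + 5) := by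
    intro z hz
    rw [mem_ball_zero_iff] at hz
    have h1 := abs_le.1 ((abs_re_le_norm z).trans hz.le)
    have h2 := (abs_im_le_norm z).trans hz.le
    have h3' := abs_sub_abs_le_abs_sub t (-z.im)
    rw [abs_neg, sub_neg_eq_add] at h3'
    have h4 : 1 ≤ |(s₀ + z).im| := by rw [add_im, him]; linarith
    have hne : s₀ + z ≠ 1 := fun hh => by rw [hh] at h4; norm_num at h4
    refine ⟨hne, ?_, ?_⟩
    · rw [hf]
      show riemannZeta (s₀ + z) ≠ 0
      rw [riemannZeta_eq_inv_sub_mul hne]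
      exact mul_ne_zero (inv_ne_zero (sub_ne_zero.2 hne))
        (H _ (by rw [add_re, hre]; linarith))
    · rw [hf]
      refine (norm_zeta_crude (by rw [add_re, hre]; linarith) (by rw [add_re, hre]; linarith)
        h4).trans ?_
      rw [add_im, him]
      linarith [abs_add_le t z.im]
  have hd : DifferentiableOn ℂ f (ball 0 R) := fun z hz => by
    rw [hf]
    exact ((differentiableAt_riemannZeta (hpt z hz).1).comp z
      (differentiableAt_id.const_add s₀)).differentiableWithinAt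
  have hlow : 1 / 8 ≤ ‖f 0‖ := by
    have := zeta_lower (δ := 1 / 2) (by norm_num) (by norm_num) t
    rw [← hs₀] at this
    norm_num at this
    simpa [hf] using this
  have hup : ‖f 0‖ ≤ 8 := by
    have h1 := norm_zeta_le_real (σ := 1 + 1 / 2) (by norm_num) (s := s₀)
      (by rw [hre]; norm_num)
    have h2 := norm_zeta_real_le (δ := 1 / 2) (by norm_num) (by norm_num)
    push_cast at h1 h2
    norm_num at h1 h2
    simpa [hf] using h1.trans h2
  obtain ⟨h, h0, hder, hexp⟩ := exists_log (by linarith) hd fun z hz => (hpt z hz).2.1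
  obtain ⟨B, hB⟩ : ∃ B, B = 40 * (|t| + 5) := ⟨_, rfl⟩
  have hB1 : 1 < B := by linarith [abs_nonneg t]
  have hlogB : Real.log B ≤ 2 * ell t := by
    rw [show (2 : ℝ) * ell t = Real.log ((|t| + 100) ^ 2) by rw [Real.log_pow]; rfl]
    exact Real.log_le_log (by linarith) (by nlinarith [abs_nonneg t])
  -- Borel and Carathéodory
  have hBC : ∀ z : ℂ, ‖z‖ ≤ r₃ → ‖h z‖ ≤ 16 * ell t / g := by
    intro z hz
    have hzb : z ∈ ball (0 : ℂ) R := mem_ball_zero_iff.2 (lt_of_le_of_lt hz h3)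
    refine (borelCaratheodory_zero (Real.log_pos hB1)
      (fun w hw => (hder w hw).differentiableAt.differentiableWithinAt) (fun w hw => ?_)
      (by linarith) hzb h0).trans ?_
    · show (h w).re ≤ Real.log B
      rw [Real.le_log_iff_exp_le (by linarith)]
      have h1 := (hpt w hw).2.2
      rw [hexp w hw, norm_mul, Complex.norm_exp] at h1
      have h2 := mul_le_mul_of_nonneg_right hlow (Real.exp_pos (h w).re).le
      linarith
    · have hr : 0 < R - ‖z‖ := by linarith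
      have hz1 : ‖z‖ ≤ 1 := by linarith
      have h4 : 2 * Real.log B * ‖z‖ ≤ 4 * ell t * 1 :=
        mul_le_mul (by linarith) hz1 (norm_nonneg _) (by linarith [ell_pos t])
      calc 2 * Real.log B * ‖z‖ / (R - ‖z‖) ≤ 4 * ell t * 1 / (g / 4) :=
            div_le_div₀ (by linarith [ell_pos t]) h4 (by linarith) (by linarith)
        _ = _ := by ring
  -- the inner circle
  have hinner : ∀ z : ℂ, ‖z‖ = 1 / 4 → ‖h z‖ ≤ M₁ := by
    intro z hz
    have hsub : closedBall (0 : ℂ) (1 / 4) ⊆ ball 0 R := closedBall_subset_ball (by linarith)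
    have := (convex_closedBall (0 : ℂ) (1 / 4)).norm_image_sub_le_of_norm_hasDerivWithin_le
      (C := 4 + C₀) (fun w hw => (hder w (hsub hw)).hasDerivWithinAt) (fun w hw => ?_)
      (mem_closedBall_self (by norm_num)) (mem_closedBall_zero_iff.2 hz.le)
    · rw [h0, sub_zero, sub_zero, hz] at this
      linarith
    · rw [mem_closedBall_zero_iff] at hw
      have h1 := abs_le.1 ((abs_re_le_norm w).trans hw)
      rw [hf, deriv_comp_const_add]
      have h2 : 5 / 4 ≤ (s₀ + w).re := by rw [add_re, hre]; linarith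
      refine (norm_logDeriv_zeta_le_real (by linarith) rfl).trans ?_
      have h5 := hreal ((s₀ + w).re - 1) (by linarith) (by rw [add_re, hre]; linarith)
      rw [add_sub_cancel] at h5
      have h6 : 1 / ((s₀ + w).re - 1) ≤ 4 := by
        rw [div_le_iff₀ (by linarith)]
        linarith
      linarith
  obtain ⟨z, hz⟩ : ∃ z : ℂ, z = ((σ - 3 / 2 : ℝ) : ℂ) := ⟨_, rfl⟩
  have hzn : ‖z‖ ≤ r₂ := by
    rw [hz, Complex.norm_real, Real.norm_eq_abs, abs_le]
    constructor <;> linarith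
  have hzb : z ∈ ball (0 : ℂ) R := mem_ball_zero_iff.2 (by linarith)
  have hsum : s₀ + z = (σ : ℂ) + t * I := by
    apply Complex.ext
    · rw [add_re, hre, hz]; simp
    · rw [add_im, him, hz]; simp
  have hsmall : ‖h z‖ ≤ η * ell t + |K| := by
    refine (norm_le_three_circles (by norm_num) h12 h23 h3
      (fun w hw => (hder w hw).differentiableAt.differentiableWithinAt) hinner
      (fun w hw => hBC w hw.le) hzn).trans ?_
    rw [← ha]
    refine (hK _ (by have := ell_pos t; positivity)).trans ?_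
    have : η * g / 16 * (16 * ell t / g) = η * ell t := by field_simp
    linarith [le_abs_self K]
  have hval : riemannZeta ((σ : ℂ) + t * I) = f z := by rw [hf, ← hsum]
  have hre' := abs_le.1 ((abs_re_le_norm (h z)).trans hsmall)
  refine ⟨?_, ?_, ?_⟩
  · rw [hval, hexp z hzb, norm_mul, Complex.norm_exp]
    exact mul_le_mul hup (Real.exp_le_exp.2 hre'.2) (Real.exp_pos _).le (by norm_num)
  · rw [hval, hexp z hzb, norm_inv, norm_mul, Complex.norm_exp, mul_inv, ← Real.exp_neg]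
    refine mul_le_mul ?_ (Real.exp_le_exp.2 (by linarith)) (Real.exp_pos _).le (by norm_num)
    rw [inv_le_comm₀ (lt_of_lt_of_le (by norm_num) hlow) (by norm_num)]
    linarith
  · have hsub : closedBall z (g / 2) ⊆ closedBall (0 : ℂ) r₃ := fun w hw => by
      rw [mem_closedBall, dist_eq_norm] at hw
      rw [mem_closedBall_zero_iff]
      linarith [norm_le_norm_add_norm_sub' w z]
    have hdd : deriv h z = deriv riemannZeta ((σ : ℂ) + t * I) /
        riemannZeta ((σ : ℂ) + t * I) := by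
      rw [(hder z hzb).deriv, hf, deriv_comp_const_add]
      simp only [hsum]
    rw [← hdd]
    refine (norm_deriv_le_of_forall_mem_sphere_norm_le (by linarith : 0 < g / 2) ?_
      fun w hw => hBC w (mem_closedBall_zero_iff.1 (hsub (sphere_subset_closedBall hw)))).trans
        (le_of_eq ?_)
    · refine DifferentiableOn.diffContOnCl ?_
      rw [closure_ball _ (by linarith : g / 2 ≠ 0)]
      exact fun w hw => (hder w (closedBall_subset_ball h3 (hsub hw))
        ).differentiableAt.differentiableWithinAt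
    · field_simp
      ring

/-- `1/ζ`, completed at `1`. -/
def invZeta (s : ℂ) : ℂ := (s - 1) / riemannZeta₁ s

theorem invZeta_eq {s : ℂ} (hs : s ≠ 1) : invZeta s = (riemannZeta s)⁻¹ := by
  rw [invZeta, riemannZeta_eq_inv_sub_mul hs, mul_inv, inv_inv, div_eq_mul_inv]

theorem differentiableAt_invZeta {s : ℂ} (h : riemannZeta₁ s ≠ 0) :
    DifferentiableAt ℂ invZeta s :=
  (differentiableAt_id.sub_const 1).div (differentiable_riemannZeta₁ s) h

/-- The weight `(1 + t²) ^ (η/2)`. -/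
def weight (η t : ℝ) : ℝ := (1 + t ^ 2) ^ (η / 2)

theorem one_le_weight {η : ℝ} (hη : 0 ≤ η) (t : ℝ) : 1 ≤ weight η t :=
  Real.one_le_rpow (by nlinarith [sq_nonneg t]) (by linarith)

theorem exp_ell_le {η : ℝ} (hη : 0 ≤ η) (t : ℝ) :
    Real.exp (η * ell t) ≤ 202 ^ η * weight η t := by
  rw [weight, ell, mul_comm, ← Real.rpow_def_of_pos (by positivity),
    show η / 2 = 1 / 2 * η by ring, Real.rpow_mul (by positivity),
    ← Real.mul_rpow (by norm_num) (by positivity), ← Real.sqrt_eq_rpow]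
  refine Real.rpow_le_rpow (by positivity) ?_ hη
  have h4 : |t| ≤ √(1 + t ^ 2) := Real.abs_le_sqrt (by linarith)
  have h5 : 1 ≤ √(1 + t ^ 2) := Real.one_le_sqrt.2 (by nlinarith [sq_nonneg t])
  linarith

theorem ell_le_weight {η : ℝ} (hη : 0 < η) (t : ℝ) : ell t ≤ 202 ^ η / η * weight η t := by
  have h1 := Real.add_one_le_exp (η * ell t)
  rw [div_mul_eq_mul_div, le_div_iff₀ hη, mul_comm]
  linarith [exp_ell_le hη.le t]

/-- **Littlewood's bounds.** -/
theorem exists_growth {θ σ₁ : ℝ} (hθ : 1 / 2 ≤ θ) (hσ : θ < σ₁) (hσ1 : σ₁ ≤ 1)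
    (H : ∀ s : ℂ, θ < s.re → riemannZeta₁ s ≠ 0) {η : ℝ} (hη : 0 < η) :
    ∃ C, 0 ≤ C ∧ ∀ s : ℂ, σ₁ ≤ s.re → s.re ≤ 2 →
      (3 ≤ |s.im| → ‖riemannZeta s‖ ≤ C * weight η s.im) ∧
      ‖errLog s‖ ≤ C * weight η s.im ∧ ‖invZeta s‖ ≤ C * weight η s.im := by
  obtain ⟨K, C, hK, hC, hdisc⟩ := exists_log_disc hθ hσ hσ1 H hη
  obtain ⟨C₀, hC₀, hreal⟩ := exists_real_bound
  have hbox : IsCompact (Icc σ₁ 2 ×ℂ Icc (-3 : ℝ) 3) :=
    IsCompact.reProdIm isCompact_Icc isCompact_Icc
  obtain ⟨M, hM⟩ := hbox.exists_bound_of_continuousOn (f := errLog) fun s hs =>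
    (differentiableAt_errLog (H s (lt_of_lt_of_le hσ (mem_reProdIm.1 hs).1.1))
      ).continuousAt.continuousWithinAt
  obtain ⟨N, hN⟩ := hbox.exists_bound_of_continuousOn (f := invZeta) fun s hs =>
    (differentiableAt_invZeta (H s (lt_of_lt_of_le hσ (mem_reProdIm.1 hs).1.1))
      ).continuousAt.continuousWithinAt
  obtain ⟨Z, hZdef⟩ : ∃ Z, Z = 8 * Real.exp K * 202 ^ η := ⟨_, rfl⟩
  have hZ : 0 ≤ Z := by rw [hZdef]; positivity
  have hD : 0 ≤ C * (202 ^ η / η) := by positivity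
  refine ⟨|M| + |N| + 2 * Z + C * (202 ^ η / η) + 2 * (10 + C₀), by positivity,
    fun s hs hs2 => ?_⟩
  have hw := one_le_weight hη.le s.im
  have q1 : 0 ≤ |M| * weight η s.im := by positivity
  have q2 : 0 ≤ |N| * weight η s.im := by positivity
  have q3 : 0 ≤ Z * weight η s.im := by positivity
  have q4 : 0 ≤ C * (202 ^ η / η) * weight η s.im := by positivity
  have q5 : 0 ≤ (10 + C₀) * weight η s.im := by positivity
  rcases le_total |s.im| 3 with ht | ht
  · have hm : s ∈ Icc σ₁ 2 ×ℂ Icc (-3 : ℝ) 3 := mem_reProdIm.2 ⟨⟨hs, hs2⟩, abs_le.1 ht⟩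
    have k1 := ((hM s hm).trans (le_abs_self M)).trans
      (le_mul_of_one_le_right (abs_nonneg M) hw)
    have k2 := ((hN s hm).trans (le_abs_self N)).trans
      (le_mul_of_one_le_right (abs_nonneg N) hw)
    refine ⟨fun h3 => ?_, by linarith, by linarith⟩
    rcases lt_or_ge (3 / 2 : ℝ) s.re with hr | hr
    · have k3 : ‖riemannZeta s‖ ≤ 8 := by
        refine (norm_zeta_le_real (σ := s.re) (by linarith) rfl).trans ?_
        have k4 := norm_zeta_real_le (δ := s.re - 1) (by linarith) (by linarith)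
        push_cast at k4
        rw [add_sub_cancel] at k4
        refine k4.trans ?_
        rw [div_le_iff₀ (by linarith)]
        linarith
      have k5 : (10 + C₀) * 1 ≤ (10 + C₀) * weight η s.im :=
        mul_le_mul_of_nonneg_left hw (by linarith)
      linarith
    · obtain ⟨k3, -, -⟩ := hdisc s.im h3 s.re hs hr
      rw [re_add_im, Real.exp_add] at k3
      have k4 := mul_le_mul_of_nonneg_left (exp_ell_le hη.le s.im)
        (show 0 ≤ 8 * Real.exp K by positivity)
      rw [hZdef] at q3 ⊢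
      linarith
  · have hs1 : s ≠ 1 := fun hh => by rw [hh] at ht; norm_num at ht
    have hz : riemannZeta s ≠ 0 := by
      rw [riemannZeta_eq_inv_sub_mul hs1]
      exact mul_ne_zero (inv_ne_zero (sub_ne_zero.2 hs1)) (H s (lt_of_lt_of_le hσ hs))
    rw [invZeta_eq hs1, errLog_eq hs1 hz]
    have e2 : ‖-deriv riemannZeta s / riemannZeta s - riemannZeta s‖ ≤
        ‖deriv riemannZeta s / riemannZeta s‖ + ‖riemannZeta s‖ :=
      (norm_sub_le _ _).trans (by rw [neg_div, norm_neg])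
    have k5 : (10 + C₀) * 1 ≤ (10 + C₀) * weight η s.im :=
      mul_le_mul_of_nonneg_left hw (by linarith)
    rcases lt_or_ge (3 / 2 : ℝ) s.re with hr | hr
    · have k3 : ‖riemannZeta s‖ ≤ 8 := by
        refine (norm_zeta_le_real (σ := s.re) (by linarith) rfl).trans ?_
        have k4 := norm_zeta_real_le (δ := s.re - 1) (by linarith) (by linarith)
        push_cast at k4
        rw [add_sub_cancel] at k4
        refine k4.trans ?_
        rw [div_le_iff₀ (by linarith)]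
        linarith
      have k4 : ‖deriv riemannZeta s / riemannZeta s‖ ≤ 2 + C₀ := by
        refine (norm_logDeriv_zeta_le_real (σ := s.re) (by linarith) rfl).trans ?_
        have k6 := hreal (s.re - 1) (by linarith) (by linarith)
        rw [add_sub_cancel] at k6
        have : 1 / (s.re - 1) ≤ 2 := by
          rw [div_le_iff₀ (by linarith)]
          linarith
        linarith
      have k6 : ‖(riemannZeta s)⁻¹‖ ≤ 8 := by
        have k7 := zeta_lower (δ := s.re - 1) (by linarith) (by linarith) s.im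
        rw [add_sub_cancel, re_add_im] at k7
        rw [norm_inv, inv_le_comm₀ (norm_pos_iff.2 hz) (by norm_num)]
        linarith
      exact ⟨fun _ => by linarith, by linarith, by linarith⟩
    · obtain ⟨k1, k2, k3⟩ := hdisc s.im ht s.re hs hr
      rw [re_add_im] at k1 k2 k3
      rw [Real.exp_add] at k1 k2
      have k4 := mul_le_mul_of_nonneg_left (exp_ell_le hη.le s.im)
        (show 0 ≤ 8 * Real.exp K by positivity)
      have k6 := mul_le_mul_of_nonneg_left (ell_le_weight hη s.im) hC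
      rw [hZdef] at q3 ⊢
      exact ⟨fun _ => by linarith, by linarith, by linarith⟩

end FA.VonKoch

end
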